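import Mathlib.LinearAlgebra.Eigenspace.Triangularizable
import Mathlib.LinearAlgebra.Complex.FiniteDimensional
import Mathlib.LinearAlgebra.Dual.Lemmas
import Mathlib.LinearAlgebra.FiniteDimensional.Lemmas
import Mathlib.Analysis.Complex.Polynomial.Basic

/-!
# Common eigenvectors of a commuting family with commuting adjoints

The main result is `span_common_eigen`.
-/

namespace Fermat.MF.Petersson

open scoped ComplexConjugate

variable {V : Type*} [AddCommGroup V] [Module ℂ V] [FiniteDimensional ℂ V] {σ : Type*}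

/-- A common eigenvector in a nonzero invariant subspace. -/
theorem exists_common_eigen (T : σ → Module.End ℂ V) (hcomm : ∀ i j, T i * T j = T j * T i)
    (U : Submodule ℂ V) (hU : U ≠ ⊥) (hinv : ∀ i, ∀ v ∈ U, T i v ∈ U) :
    ∃ v ∈ U, v ≠ 0 ∧ ∀ i, ∃ c : ℂ, T i v = c • v := by
  induction hn : Module.finrank ℂ U using Nat.strong_induction_on generalizing U with
  | _ n ih =>
  subst hn
  by_cases hsc : ∀ i, ∃ c : ℂ, ∀ v ∈ U, T i v = c • v
  · obtain ⟨v, hv, hv0⟩ := Submodule.exists_mem_ne_zero_of_ne_bot hU
    exact ⟨v, hv, hv0, fun i => ⟨_, (hsc i).choose_spec v hv⟩⟩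
  · push Not at hsc
    obtain ⟨i, hi⟩ := hsc
    have : Nontrivial U := Submodule.nontrivial_iff_ne_bot.mpr hU
    obtain ⟨c, hc⟩ := Module.End.exists_eigenvalue ((T i).restrict (hinv i))
    obtain ⟨u, hu⟩ := hc.exists_hasEigenvector
    set U' : Submodule ℂ V := U ⊓ Module.End.eigenspace (T i) c
    have hu' : (u : V) ∈ U' :=
      ⟨u.2, Module.End.mem_eigenspace_iff.mpr (congrArg Subtype.val hu.apply_eq_smul)⟩
    have hne : U' ≠ ⊥ := fun h => hu.2 (Subtype.ext ((Submodule.mem_bot ℂ).mp (h ▸ hu')))
    obtain ⟨w, hw, hwc⟩ := hi c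
    have hlt : U' < U := by
      refine lt_of_le_of_ne inf_le_left fun h => hwc ?_
      rw [← h] at hw
      exact Module.End.mem_eigenspace_iff.mp hw.2
    obtain ⟨v, hv, hv0, hvT⟩ := ih _ (Submodule.finrank_lt_finrank_of_lt hlt) U' hne
      (fun j v hv => ⟨hinv j v hv.1, Module.End.mem_eigenspace_iff.mpr (by
        have h2 := congrArg (fun f : Module.End ℂ V => f v) (hcomm i j)
        simp only [Module.End.mul_apply] at h2
        rw [h2, Module.End.mem_eigenspace_iff.mp hv.2, map_smul])⟩) rfl
    exact ⟨v, hv.1, hv0, hvT⟩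

/-- A commuting family with adjoints commuting with it has a spanning set of eigenvectors. -/
theorem span_common_eigen (φ : V → V → ℂ) (haddl : ∀ u v w, φ (u + v) w = φ u w + φ v w)
    (haddr : ∀ u v w, φ u (v + w) = φ u v + φ u w)
    (hsmull : ∀ (c : ℂ) u v, φ (c • u) v = conj c * φ u v)
    (hsmulr : ∀ (c : ℂ) u v, φ u (c • v) = c * φ u v) (hpos : ∀ u, φ u u = 0 → u = 0)
    (S adj : σ → Module.End ℂ V) (hcomm : ∀ i j, S i * S j = S j * S i)
    (hadj : ∀ i u v, φ (S i u) v = φ u (adj i v))
    (hadjc : ∀ i j, adj i * S j = S j * adj i) :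
    Submodule.span ℂ {v : V | ∀ i, ∃ c : ℂ, S i v = c • v} = ⊤ := by
  set W := Submodule.span ℂ {v : V | ∀ i, ∃ c : ℂ, S i v = c • v} with hWdef
  have hzero : ∀ v, φ 0 v = 0 := fun v => by simpa using hsmull 0 0 v
  -- the adjoints preserve the span `W` of the common eigenvectors
  have hW : ∀ i, ∀ v ∈ W, adj i v ∈ W := fun i v hv => by
    induction hv using Submodule.span_induction with
    | mem v hv =>
      refine Submodule.subset_span fun j => ?_
      obtain ⟨c, hc⟩ := hv j
      refine ⟨c, ?_⟩
      rw [← Module.End.mul_apply, ← hadjc, Module.End.mul_apply, hc, map_smul]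
    | zero => simp
    | add u w _ _ hu hw => rw [map_add]; exact add_mem hu hw
    | smul c u _ hu => rw [map_smul]; exact Submodule.smul_mem _ _ hu
  let O : Submodule ℂ V :=
    { carrier := {v | ∀ w ∈ W, φ v w = 0}
      zero_mem' := fun w _ => hzero w
      add_mem' := fun ha hb w hw => by rw [haddl, ha w hw, hb w hw, add_zero]
      smul_mem' := fun c v hv w hw => by rw [hsmull, hv w hw, mul_zero] }
  -- so its orthogonal is stable, hence zero: a common eigenvector there would lie in `W`
  have hO : O = ⊥ := by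
    by_contra h
    obtain ⟨v, hv, hv0, hvS⟩ := exists_common_eigen S hcomm O h fun i v hv w hw => by
      rw [hadj]; exact hv _ (hW i w hw)
    exact hv0 (hpos v (hv v (Submodule.subset_span hvS)))
  -- `φ` identifies `V` with its dual, so a functional vanishing on `W` is zero
  let Φ : V →ₗ[ℝ] Module.Dual ℂ V :=
    { toFun := fun v =>
        { toFun := φ v
          map_add' := fun a b => haddr v a b
          map_smul' := fun c a => hsmulr c v a }
      map_add' := fun u v => LinearMap.ext fun w => haddl u v w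
      map_smul' := fun r v => LinearMap.ext fun w => by
        change φ (r • v) w = r • φ v w
        rw [← Complex.coe_smul, hsmull, Complex.conj_ofReal, Complex.real_smul] }
  have : FiniteDimensional ℝ V := Module.Finite.trans ℂ V
  have : FiniteDimensional ℝ (Module.Dual ℂ V) := Module.Finite.trans ℂ _
  have hinj : Function.Injective Φ := (injective_iff_map_eq_zero Φ).mpr fun v hv =>
    hpos v (DFunLike.congr_fun hv v)
  have hsurj := (LinearMap.injective_iff_surjective_of_finrank_eq_finrank (by
    rw [finrank_real_of_complex, finrank_real_of_complex, Subspace.dual_finrank_eq])).mp hinj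
  refine eq_top_iff.mpr fun x _ => ?_
  by_contra hx
  obtain ⟨l, hl, hlW⟩ := Submodule.exists_dual_map_eq_bot_of_notMem hx inferInstance
  obtain ⟨v, rfl⟩ := hsurj l
  have hv : v ∈ O := fun w hw => by
    have hm : Φ v w ∈ W.map (Φ v) := ⟨w, hw, rfl⟩
    rw [hlW, Submodule.mem_bot] at hm
    exact hm
  rw [hO, Submodule.mem_bot] at hv
  subst hv
  simp at hl

end Fermat.MF.Petersson
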