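import Fermat.Agent.MF.Petersson.Inner
import Fermat.Agent.MF.Petersson.Eigen
import Mathlib.RingTheory.MvPolynomial.Basic

/-!
# Semisimplicity of the Hecke operators away from the level

The Hecke operators at the primes not dividing the level and the diamond operators have adjoints
for the Petersson product, and their common eigenvectors span `S₂(Γ_H(N))`.

`span_anemic_eigen`, by `exists_adjoint` and `Eigen`; it makes the reduced Hecke algebras of
`GR/RT/HeckeReduced` and `HM/Raise/Semisimple`.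
-/

namespace Fermat.MF.Petersson

open scoped MatrixGroups ModularForm
open UpperHalfPlane CongruenceSubgroup Matrix Fermat.HM Fermat.MC.Lvl

variable {N : ℕ} [NeZero N] {H : Subgroup (ZMod N)ˣ}

/-- A rational matrix of positive determinant keeps it over `ℝ`. -/
theorem det_toReal_pos {M : GL (Fin 2) ℚ} (h : 0 < (M : Matrix (Fin 2) (Fin 2) ℚ).det) :
    (0 : ℝ) < (toReal M).det.val := by
  rw [GeneralLinearGroup.val_det_apply, det_fin_two]
  simp only [toReal_apply]
  rw [det_fin_two] at h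
  exact_mod_cast h

omit [NeZero N] in
/-- Members of the Hecke set of a positive `n` have positive determinant. -/
theorem det_pos_of_mem_heckeSet {n : ℤ} (hn : 0 < n) {M : GL (Fin 2) ℚ}
    (hM : M ∈ heckeSet N H n) : 0 < (M : Matrix (Fin 2) (Fin 2) ℚ).det := by
  obtain ⟨P, hP, e⟩ := hM
  have : (M : Matrix (Fin 2) (Fin 2) ℚ).det = ((n : ℤ) : ℚ) := by
    rw [e, ← hP.1, det_fin_two, det_fin_two]
    simp
  rw [this]
  exact_mod_cast hn

/-- Multiplying a matrix by a positive scalar does not change the weight two slash. -/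
theorem slash_scalar (g : ℍ → ℂ) {M M' : GL (Fin 2) ℝ} {c : ℝ} (hc : 0 < c)
    (hM : 0 < M.det.val) (e : (M' : Matrix (Fin 2) (Fin 2) ℝ) =
      c • (M : Matrix (Fin 2) (Fin 2) ℝ)) :
    g ∣[(2 : ℤ)] M' = g ∣[(2 : ℤ)] M := by
  have hdet : M'.det.val = c ^ 2 * M.det.val := by
    simp only [GeneralLinearGroup.val_det_apply, e, det_smul, Fintype.card_fin]
  have hM' : 0 < M'.det.val := by rw [hdet]; positivity
  have he : ∀ i j, M' i j = c * M i j := fun i j => by
    show (M' : Matrix (Fin 2) (Fin 2) ℝ) i j = _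
    rw [e]
    rfl
  funext τ
  have hcc : (c : ℂ) ≠ 0 := by exact_mod_cast hc.ne'
  have hd : denom M' τ = c * denom M τ := by
    simp only [denom, he]
    push_cast
    ring
  have hs : M' • τ = M • τ := by
    apply UpperHalfPlane.ext
    rw [coe_smul_of_det_pos hM', coe_smul_of_det_pos hM, hd]
    simp only [num, he]
    push_cast
    rw [show (c : ℂ) * M 0 0 * τ + c * M 0 1 = c * (M 0 0 * τ + M 0 1) by ring,
      mul_div_mul_left _ _ hcc]
  rw [slash_two g hM', slash_two g hM, hs, hd, hdet, abs_mul, abs_of_pos (pow_pos hc 2), mul_zpow]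
  push_cast
  simp only [_root_.zpow_neg, zpow_ofNat]
  field_simp

omit [NeZero N] in
/-- The integral adjugate of an element of the Hecke set, moved by the diamond of `ℓ`. -/
theorem exists_adjugate {ℓ : ℕ} [hℓ : Fact ℓ.Prime] {u : (ZMod N)ˣ} (hu : (u : ZMod N) = ℓ)
    {g0 : SL(2, ℤ)} (hg0 : g0 ∈ Gamma0 N) (e0 : ((g0 0 0 : ℤ) : ZMod N) = (u : ZMod N))
    {M : GL (Fin 2) ℚ} (hM : M ∈ heckeSet N H ℓ) :
    ∃ A ∈ heckeSet N H ℓ, ((gq g0 * A : GL (Fin 2) ℚ) : Matrix (Fin 2) (Fin 2) ℚ)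
      = (ℓ : ℚ) • ((M⁻¹ : GL (Fin 2) ℚ) : Matrix (Fin 2) (Fin 2) ℚ) := by
  obtain ⟨P, ⟨hd, hc, h, hh, hh'⟩, e⟩ := hM
  have hℓ0 : (ℓ : ℚ) ≠ 0 := by exact_mod_cast hℓ.out.ne_zero
  -- take `Q = g0⁻¹ * adj P`, of determinant `ℓ`
  set Q : Matrix (Fin 2) (Fin 2) ℤ := ((g0⁻¹ : SL(2, ℤ)) : Matrix (Fin 2) (Fin 2) ℤ) * P.adjugate
    with hQ
  have hQd : Q.det = ℓ := by
    rw [hQ, det_mul, det_adjugate, (g0⁻¹).2, hd]
    simp
  have hg0' := Gamma0_entries hg0
  have hdd := congrArg (fun x : ℤ => (x : ZMod N)) hd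
  rw [det_fin_two] at hdd
  push_cast at hdd
  rw [hc, mul_zero, sub_zero, ← hh', ← hu] at hdd
  -- it satisfies the congruences of the Hecke set
  have hQH : IsHecke N H ℓ Q := by
    refine ⟨hQd, ?_, h⁻¹, inv_mem hh, ?_⟩
    · simp [Q, Matrix.adjugate_fin_two, hc,
        Gamma0_mem.mp hg0]
    · have hP11 : ((P 1 1 : ℤ) : ZMod N) = ((h⁻¹ : (ZMod N)ˣ) : ZMod N) * (u : ZMod N) := by
        rw [← hdd, ← mul_assoc, Units.inv_mul, one_mul]
      rw [e0] at hg0'
      have hi : (((g0⁻¹ : SL(2, ℤ)) 0 0 : ℤ) : ZMod N) = ((g0 1 1 : ℤ) : ZMod N) := by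
        simp [Matrix.adjugate_fin_two]
      simp only [Q, hi, Matrix.mul_apply, Fin.sum_univ_two, Matrix.adjugate_fin_two,
        Matrix.of_apply, Matrix.cons_val', Matrix.cons_val_zero,
        Matrix.cons_val_one, Matrix.empty_val', Matrix.cons_val_fin_one, Int.cast_add,
        Int.cast_mul, Int.cast_neg, hc, hP11]
      linear_combination -((h⁻¹ : (ZMod N)ˣ) : ZMod N) * hg0'
  have h0 : Q.det ≠ 0 := by rw [hQd]; exact_mod_cast hℓ.out.ne_zero
  refine ⟨intMat Q h0, intMat_mem_heckeSet hQH h0, ?_⟩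
  -- and `g0 * Q = adj P = ℓ M⁻¹`
  have hPA : P.adjugate.map (fun x : ℤ => (x : ℚ))
      = (P.map (fun x : ℤ => (x : ℚ))).adjugate := by
    ext i j
    fin_cases i <;> fin_cases j <;> simp [Matrix.adjugate_fin_two]
  have hMd : (M : Matrix (Fin 2) (Fin 2) ℚ).det = (ℓ : ℚ) := by
    have hdQ := congrArg (fun x : ℤ => (x : ℚ)) hd
    rw [det_fin_two] at hdQ
    push_cast at hdQ
    rw [e, det_fin_two]
    simpa using hdQ
  rw [Units.val_mul, coe_intMat, coe_gq, hQ, ← Matrix.map_mul_intCast, ← Matrix.mul_assoc,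
    show ((g0 : SL(2, ℤ)) : Matrix (Fin 2) (Fin 2) ℤ)
        * ((g0⁻¹ : SL(2, ℤ)) : Matrix (Fin 2) (Fin 2) ℤ) = 1
      from congrArg Subtype.val (mul_inv_cancel g0), Matrix.one_mul, hPA,
    ← e, GeneralLinearGroup.coe_inv, Matrix.inv_def, hMd, Ring.inverse_eq_inv', smul_smul,
    mul_inv_cancel₀ hℓ0, one_smul]

/-- Scalar multiples are preserved over `ℝ`. -/
theorem toReal_smul_eq {M M' : GL (Fin 2) ℚ} {c : ℚ}
    (e : (M' : Matrix (Fin 2) (Fin 2) ℚ) = c • (M : Matrix (Fin 2) (Fin 2) ℚ)) :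
    (toReal M' : Matrix (Fin 2) (Fin 2) ℝ) = (c : ℝ) • (toReal M : Matrix (Fin 2) (Fin 2) ℝ) := by
  ext i j
  rw [Matrix.smul_apply, smul_eq_mul, toReal_apply, toReal_apply,
    show M' i j = c * M i j from by rw [e]; rfl]
  push_cast
  rfl

/-- The adjoint of `T ℓ` is `T ℓ` after the diamond of `ℓ`. -/
theorem pet_formHecke {ℓ : ℕ} [hℓ : Fact ℓ.Prime] {u : (ZMod N)ˣ} (hu : (u : ZMod N) = ℓ)
    (f g : CuspForm (GammaH N H) 2) :
    pet (GammaH N H) ⇑(formHecke N H ℓ f) ⇑g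
      = pet (GammaH N H) ⇑f ⇑(formHecke N H ℓ (formDia N H u g)) := by
  obtain ⟨hg0, e0⟩ := (exists_gamma0_lift u).choose_spec
  set g0 := (exists_gamma0_lift u).choose with hg0def
  set D := heckeSet N H (ℓ : ℤ)
  have hB := isLeftReps_stdGL (N := N) (H := H) (ℓ := ℓ)
  have hflip := levelAnti_flip (N := N) (H := H)
  have hmulL : ∀ {M : GL (Fin 2) ℚ} {d : SL(2, ℤ)}, d ∈ GammaH N H → M ∈ D → gq d * M ∈ D :=
    fun hd hM => by simpa [D] using heckeSet_mul (gq_mem_heckeSet hd) hM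
  have hmulR : ∀ {M : GL (Fin 2) ℚ} {d : SL(2, ℤ)}, d ∈ GammaH N H → M ∈ D → M * gq d ∈ D :=
    fun hd hM => by simpa [D] using heckeSet_mul hM (gq_mem_heckeSet hd)
  -- right representatives of the double coset, and the adjunction of left and right sums
  set C : HeckeIdx ℓ N → GL (Fin 2) ℚ := fun j => flip N (stdGL ℓ N j) with hCdef
  have hCmem : ∀ j, C j ∈ D := fun j => flip_mem (stdGL_mem j)
  have key := pet_adjoint (GammaH N H) (D := D) (stdGL ℓ N) C
    (fun M hM => det_toReal_pos (det_pos_of_mem_heckeSet (by exact_mod_cast hℓ.out.pos) hM))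
    (fun i γ hγ => hmulL hγ (stdGL_mem i))
    (fun M hM => by
      obtain ⟨i, d, hd, rfl⟩ := hB.exists_eq M hM
      refine ⟨(i, ⟨d, hd⟩), rfl, ?_⟩
      rintro ⟨k, γ⟩ hk
      have hki : i = k := hB.uniq i k ((γ : SL(2, ℤ))⁻¹ * d) (mul_mem (inv_mem γ.2) hd) (by
        have hk' : gq (γ : SL(2, ℤ)) * stdGL ℓ N k = gq d * stdGL ℓ N i := hk
        rw [map_mul, map_inv, mul_assoc, ← hk', inv_mul_cancel_left])
      subst hki
      exact Prod.ext rfl (Subtype.ext (Reps.gq_injective (mul_right_cancel hk))))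
    (fun j γ hγ => hmulR hγ (hCmem j))
    (fun M hM => by
      obtain ⟨j, d, hd, e⟩ := hB.exists_eq _ (flip_mem hM)
      obtain ⟨d', hd', ed⟩ := hflip.level d hd
      have eM : M = C j * gq d' := by
        rw [← hflip.invol M, e, hflip.map_mul, ed]
      refine ⟨(j, ⟨d'⁻¹, inv_mem hd'⟩), by simp [eM], ?_⟩
      rintro ⟨k, γ⟩ hk
      have hk' : C k * gq (γ : SL(2, ℤ))⁻¹ = C j * gq d' := hk.trans eM
      obtain ⟨x, hx, ex⟩ := hflip.level (d' * (γ : SL(2, ℤ))) (mul_mem hd' γ.2)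
      have hjk : j = k := hB.uniq j k x hx (by
        have e2 : C k = C j * gq (d' * (γ : SL(2, ℤ))) := by
          rw [map_mul, ← mul_assoc, ← hk', map_inv, inv_mul_cancel_right]
        have := congrArg (flip N) e2
        simp only [C, hflip.map_mul, hflip.invol, ex] at this
        exact this.symm)
      subst hjk
      refine Prod.ext rfl (Subtype.ext ?_)
      change (γ : SL(2, ℤ)) = d'⁻¹
      rw [← Reps.gq_injective (mul_left_cancel hk'), inv_inv])
    (bdd_cuspForm f) (bdd_cuspForm g) (inv_cuspForm _ f) (inv_cuspForm _ g)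
  rw [formHecke, coe_formMap, show (hecke N H ℓ).toReps.B = stdGL ℓ N from rfl, key]
  congr 1
  -- `ℓ C j⁻¹` is `g0` times a member of the Hecke set, permuting the left representatives
  choose A hA eA using fun j => exists_adjugate hu hg0 e0 (hCmem j)
  choose σ d hd hσ using fun j => hB.exists_eq (A j) (hA j)
  have hinj : Function.Injective σ := by
    intro j k hjk
    set x : SL(2, ℤ) := g0 * (d k * (d j)⁻¹) * g0⁻¹ with hxdef
    have hx : x ∈ GammaH N H := by
      obtain ⟨y, hy, ey⟩ := exists_gq_of_mem_one ((isLevelMap_gamma0 (le_refl H) hg0).conj_mem 1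
        isCoprime_one_left _ (gq_mem_heckeSet (mul_mem (hd k) (inv_mem (hd j)))))
      rw [← map_inv, ← map_mul, ← map_mul] at ey
      have ey' : x = y := Reps.gq_injective ey
      rw [ey']; exact hy
    have e1 : gq g0 * A k = gq x * (gq g0 * A j) := by
      simp only [x, hσ j, hσ k, ← hjk, map_mul, map_inv, mul_assoc, inv_mul_cancel_left]
    have e2 : (C k)⁻¹ = gq x * (C j)⁻¹ := by
      apply Units.ext
      have h := congrArg Units.val e1
      rw [Units.val_mul (gq x), eA, eA, Matrix.mul_smul, ← Units.val_mul] at h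
      exact smul_right_injective _ (show (ℓ : ℚ) ≠ 0 by exact_mod_cast hℓ.out.ne_zero) h
    have e3 : C k = C j * gq x⁻¹ := by
      rw [← _root_.inv_inj, e2, _root_.mul_inv_rev, map_inv, inv_inv]
    obtain ⟨y, hy, ey⟩ := hflip.level x⁻¹ (inv_mem hx)
    refine hB.uniq j k y hy ?_
    have := congrArg (flip N) e3
    simp only [C, hflip.map_mul, hflip.invol, ey] at this
    exact this.symm
  -- compare the sums term by term
  change _ = ∑ i, ⇑(formDia N H u g) ∣[(2 : ℤ)] toReal (stdGL ℓ N i)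
  refine Fintype.sum_bijective σ (Finite.injective_iff_bijective.mp hinj) _ _ fun j => ?_
  have hpos : (0 : ℝ) < (toReal (C j))⁻¹.det.val := by
    rw [map_inv, Units.val_inv_eq_inv_val]
    exact inv_pos.mpr (det_toReal_pos (det_pos_of_mem_heckeSet
      (by exact_mod_cast hℓ.out.pos) (hCmem j)))
  have es : ⇑g ∣[(2 : ℤ)] toReal (gq g0 * A j) = ⇑g ∣[(2 : ℤ)] (toReal (C j))⁻¹ :=
    slash_scalar _ (c := (ℓ : ℝ)) (by exact_mod_cast hℓ.out.pos) hpos
      (by simpa [map_inv] using toReal_smul_eq (eA j))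
  rw [← es, formDia, IsLevelMap.coe_formPull, ← hg0def, hσ j, map_mul, map_mul,
    SlashAction.slash_mul, SlashAction.slash_mul, toReal_gq (d j),
    ← IsLevelMap.coe_formPull (isLevelMap_gamma0 (le_refl H) hg0),
    inv_cuspForm _ _ _ (hd j)]

/-- The adjoint of a diamond operator is the inverse diamond operator. -/
theorem pet_formDia (u : (ZMod N)ˣ) (f g : CuspForm (GammaH N H) 2) :
    pet (GammaH N H) ⇑(formDia N H u f) ⇑g = pet (GammaH N H) ⇑f ⇑(formDia N H u⁻¹ g) := by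
  obtain ⟨hg0, e0⟩ := (exists_gamma0_lift u).choose_spec
  set g0 := (exists_gamma0_lift u).choose with hg0def
  -- a lift `g0` of `u` normalises the group
  have hconj : ∀ {a : SL(2, ℤ)}, a ∈ Gamma0 N → ∀ γ ∈ GammaH N H, a * γ * a⁻¹ ∈ GammaH N H :=
    fun {a} ha γ hγ => by
    obtain ⟨y, hy, ey⟩ := exists_gq_of_mem_one
      ((isLevelMap_gamma0 (le_refl H) ha).conj_mem 1 isCoprime_one_left _ (gq_mem_heckeSet hγ))
    rw [← map_inv, ← map_mul, ← map_mul] at ey
    exact Reps.gq_injective ey ▸ hy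
  -- adjointness for the double coset of `g0`, a single coset
  have key := pet_adjoint (GammaH N H) (D := {M | ∃ γ ∈ GammaH N H, M = gq γ * gq g0})
    (fun _ : Unit => gq g0) (fun _ : Unit => gq g0)
    (fun M ⟨γ, _, e⟩ => by rw [e, ← map_mul, toReal_gq]; simp)
    (fun _ γ hγ => ⟨γ, hγ, rfl⟩)
    (fun M ⟨γ, hγ, e⟩ => ⟨((), ⟨γ, hγ⟩), e.symm, fun x hx =>
      Prod.ext rfl (Subtype.ext (Reps.gq_injective (mul_right_cancel (hx.trans e))))⟩)
    (fun _ γ hγ => ⟨g0 * γ * g0⁻¹, hconj hg0 γ hγ, by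
      rw [← map_mul, ← map_mul, inv_mul_cancel_right]⟩)
    (fun M ⟨γ, hγ, e⟩ => by
      refine ⟨((), ⟨g0⁻¹ * γ⁻¹ * g0, ?_⟩), ?_, fun x hx => ?_⟩
      · simpa using hconj (inv_mem hg0) γ⁻¹ (inv_mem hγ)
      · change gq g0 * gq (g0⁻¹ * γ⁻¹ * g0)⁻¹ = M
        rw [e, ← map_mul, ← map_mul]
        congr 1
        group
      · refine Prod.ext rfl (Subtype.ext ?_)
        have h := hx.trans e
        rw [← map_mul, ← map_mul] at h
        have h' := Reps.gq_injective h
        change (x.2 : SL(2, ℤ)) = g0⁻¹ * γ⁻¹ * g0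
        rw [← _root_.inv_inj, ← mul_right_inj g0, h']
        group)
    (bdd_cuspForm f) (bdd_cuspForm g) (inv_cuspForm _ f) (inv_cuspForm _ g)
  -- `g0⁻¹` lifts `u⁻¹`
  have einv : (((g0⁻¹ : SL(2, ℤ)) 0 0 : ℤ) : ZMod N) = ((u⁻¹ : (ZMod N)ˣ) : ZMod N) := by
    have := Gamma0_entries hg0
    rw [e0] at this
    have h1 : (((g0⁻¹ : SL(2, ℤ)) 0 0 : ℤ) : ZMod N) = ((g0 1 1 : ℤ) : ZMod N) := by
      simp [Matrix.adjugate_fin_two]
    rw [h1]
    exact (Units.inv_eq_of_mul_eq_one_right this).symm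
  rw [← formPull_gamma0 (inv_mem hg0) u⁻¹ einv g, formDia, IsLevelMap.coe_formPull,
    IsLevelMap.coe_formPull]
  rw [map_inv, map_inv]
  simp only [Fintype.sum_unique] at key
  exact key

/-- The labels of the Hecke operators away from the level and of the diamond operators. -/
def IsAnemic (N : ℕ) : Nat.Primes ⊕ (ZMod N)ˣ → Prop
  | .inl l => ¬ (l : ℕ) ∣ N
  | .inr _ => True

/-- An anemic operator has a Petersson adjoint commuting with all Hecke operators. -/
theorem exists_adjoint (a : Nat.Primes ⊕ (ZMod N)ˣ) (ha : IsAnemic N a) :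
    ∃ A : Module.End ℂ (CuspForm (GammaH N H) 2),
      (∀ f g : CuspForm (GammaH N H) 2,
        pet (GammaH N H) ⇑(formOp N H a f) ⇑g = pet (GammaH N H) ⇑f ⇑(A g)) ∧
      ∀ b, A * formOp N H b = formOp N H b * A := by
  rcases a with l | u
  · have : Fact (l : ℕ).Prime := ⟨l.2⟩
    refine ⟨formOp N H (.inl l)
      * formOp N H (.inr (ZMod.unitOfCoprime l (l.2.coprime_iff_not_dvd.mpr ha))), fun f g => ?_,
      fun b => ?_⟩
    · exact pet_formHecke (ZMod.coe_unitOfCoprime _ _) f g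
    · rw [mul_assoc, formOp_comm _ b, ← mul_assoc, formOp_comm _ b, mul_assoc]
  · exact ⟨formOp N H (.inr u⁻¹), fun f g => pet_formDia u f g, fun b => formOp_comm _ _⟩

variable [FiniteDimensional ℂ (CuspForm (GammaH N H) 2)]

/-- The anemic operators are diagonalisable on `S₂(Γ_H(N))`. -/
theorem span_anemic_eigen :
    Submodule.span ℂ {f : CuspForm (GammaH N H) 2 |
      ∀ a : {a // IsAnemic N a}, ∃ c : ℂ, formOp N H a.1 f = c • f} = ⊤ := by
  choose A hA hAc using fun a : {a // IsAnemic N a} => exists_adjoint (H := H) a.1 a.2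
  refine span_common_eigen (fun f g : CuspForm (GammaH N H) 2 => pet (GammaH N H) ⇑f ⇑g)
    (fun f g h => ?_) (fun f g h => ?_)
    (fun c f g => ?_) (fun c f g => ?_) (fun f h => eq_zero_of_pet_self _ h) _ A
    (fun a b => formOp_comm _ _) hA fun a b => hAc a b.1
  · rw [FunLike.coe_add]
    exact pet_add_left _ (bdd_cuspForm f) (bdd_cuspForm g) (bdd_cuspForm h)
  · rw [FunLike.coe_add]
    exact pet_add_right _ (bdd_cuspForm f) (bdd_cuspForm g) (bdd_cuspForm h)
  · rw [FunLike.coe_smul]; exact pet_smul_left _ c f g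
  · rw [FunLike.coe_smul]; exact pet_smul_right _ c f g

end Fermat.MF.Petersson
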