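import Fermat.Agent.MF.Petersson.Measure
import Fermat.Agent.HM.Forms
import Mathlib.NumberTheory.ModularForms.Bounds
import Mathlib.NumberTheory.ModularForms.Petersson
import Mathlib.MeasureTheory.Measure.OpenPos
import Mathlib.Analysis.Complex.CauchyIntegral

/-!
# The Petersson product in weight two and adjoints of double cosets

`pet_adjoint`: the adjoint of a double coset operator is that of the inverse double coset. `Hecke`
applies it to `T ℓ` and to the diamond operators.
-/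

namespace Fermat.MF.Petersson

open scoped MatrixGroups Modular ENNReal ModularForm ComplexConjugate
open MeasureTheory UpperHalfPlane ModularGroup Fermat.HM

/-- Continuous with `im · ‖f‖` bounded. -/
structure Bdd (f : ℍ → ℂ) : Prop where
  /-- The function is continuous. -/
  cont : Continuous f
  /-- The product of the norm and the height is bounded. -/
  bound : ∃ C, ∀ τ, ‖f τ‖ * τ.im ≤ C

/-- Boundedness is stable under addition. -/
theorem Bdd.add {f g : ℍ → ℂ} (hf : Bdd f) (hg : Bdd g) : Bdd (f + g) := by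
  refine ⟨hf.cont.add hg.cont, ?_⟩
  obtain ⟨C, hC⟩ := hf.bound
  obtain ⟨D, hD⟩ := hg.bound
  exact ⟨C + D, fun τ => ((mul_le_mul_of_nonneg_right (norm_add_le _ _) τ.im_pos.le).trans
    (le_of_eq (add_mul _ _ _))).trans (add_le_add (hC τ) (hD τ))⟩

/-- Boundedness is stable under finite sums. -/
theorem Bdd.sum {ι : Type*} (s : Finset ι) {f : ι → ℍ → ℂ} (hf : ∀ i, Bdd (f i)) :
    Bdd (∑ i ∈ s, f i) :=
  Finset.sum_induction _ Bdd (fun _ _ => Bdd.add)
    ⟨continuous_const, 0, fun τ => by simp⟩ fun i _ => hf i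

/-- A matrix of positive determinant does not conjugate the values. -/
theorem sigma_eq {M : GL (Fin 2) ℝ} (hM : 0 < M.det.val) :
    σ M = ContinuousAlgEquiv.refl ℝ ℂ := by
  rw [σ, if_pos hM]

/-- The weight two slash by a matrix of positive determinant, written out. -/
theorem slash_two (f : ℍ → ℂ) {M : GL (Fin 2) ℝ} (hM : 0 < M.det.val) (τ : ℍ) :
    (f ∣[(2 : ℤ)] M) τ = f (M • τ) * ((|M.det.val| : ℝ) : ℂ) * denom M τ ^ (-2 : ℤ) := by
  rw [ModularForm.slash_apply, sigma_eq hM]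
  simp

/-- The weight two integrand of slashed functions is the integrand at the moved point. -/
theorem petersson_two_slash (f g : ℍ → ℂ) {M : GL (Fin 2) ℝ} (hM : 0 < M.det.val) (τ : ℍ) :
    petersson 2 (f ∣[(2 : ℤ)] M) (g ∣[(2 : ℤ)] M) τ = petersson 2 f g (M • τ) := by
  rw [petersson_slash, sigma_eq hM]
  simp

/-- On the diagonal the integrand is `(‖f‖ im)²`. -/
theorem petersson_self (f : ℍ → ℂ) (τ : ℍ) :
    petersson 2 f f τ = (((‖f τ‖ * τ.im) ^ 2 : ℝ) : ℂ) := by
  rw [petersson, ← Complex.normSq_eq_conj_mul_self, Complex.normSq_eq_norm_sq, mul_pow]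
  push_cast
  simp [zpow_ofNat]

/-- The norm of the integrand is `(‖f‖ im) (‖g‖ im)`. -/
theorem norm_petersson (f g : ℍ → ℂ) (τ : ℍ) :
    ‖petersson 2 f g τ‖ = (‖f τ‖ * τ.im) * (‖g τ‖ * τ.im) := by
  simp [petersson, zpow_ofNat, abs_of_pos τ.im_pos]
  ring

/-- Boundedness is stable under the slash by a matrix of positive determinant. -/
theorem Bdd.slash {f : ℍ → ℂ} (hf : Bdd f) {M : GL (Fin 2) ℝ} (hM : 0 < M.det.val) :
    Bdd (f ∣[(2 : ℤ)] M) := by
  constructor
  · simp only [funext (slash_two f hM)]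
    have hden : Continuous fun τ : ℍ => denom M τ := by unfold denom; fun_prop
    exact ((hf.cont.comp (continuous_const_smul M)).mul continuous_const).mul
      (hden.zpow₀ _ fun τ => Or.inl (denom_ne_zero M τ))
  · obtain ⟨C, hC⟩ := hf.bound
    refine ⟨C, fun τ => ?_⟩
    have h := petersson_two_slash f f hM τ
    rw [petersson_self, petersson_self, Complex.ofReal_inj,
      sq_eq_sq₀ (by positivity) (by positivity)] at h
    exact h.trans_le (hC _)

/-- A cusp form of weight two is bounded in this sense. -/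
theorem bdd_cuspForm {Γ : Subgroup SL(2, ℤ)} [Γ.FiniteIndex] (f : CuspForm Γ 2) : Bdd ⇑f := by
  refine ⟨(CuspFormClass.holo f).continuous, ?_⟩
  obtain ⟨C, hC⟩ := CuspFormClass.exists_bound f
  refine ⟨C, fun τ => ?_⟩
  have := hC τ
  rw [show ((2 : ℤ) : ℝ) / 2 = 1 by norm_num, Real.rpow_one] at this
  exact (le_div_iff₀ τ.im_pos).mp this

/-- The integrand of two bounded functions is integrable on each translate of the domain. -/
theorem Bdd.integrableOn {f g : ℍ → ℂ} (hf : Bdd f) (hg : Bdd g) (M : GL (Fin 2) ℝ) :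
    IntegrableOn (petersson 2 f g) (dom M) := by
  have hfin : volume (dom M) < ∞ := by
    rw [dom, (measurePreserving_smul M volume).measure_preimage
      isOpen_fdo.measurableSet.nullMeasurableSet]
    exact volume_fdo_lt_top
  obtain ⟨C, hC⟩ := hf.bound
  obtain ⟨D, hD⟩ := hg.bound
  refine IntegrableOn.of_bound hfin
    (petersson_continuous 2 hf.cont hg.cont).aestronglyMeasurable (C * D) (ae_of_all _ fun τ => ?_)
  rw [norm_petersson]
  exact mul_le_mul (hC τ) (hD τ) (by positivity)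
    ((mul_nonneg (norm_nonneg _) τ.im_pos.le).trans (hC τ))

variable (Γ : Subgroup SL(2, ℤ)) [Γ.FiniteIndex]

/-- The cosets of a finite-index subgroup form a finite type. -/
noncomputable local instance : Fintype (SL(2, ℤ) ⧸ Γ) := Fintype.ofFinite _

/-- The Petersson product over the translates of the fundamental domain. -/
noncomputable def pet (f g : ℍ → ℂ) : ℂ :=
  ∑ q : SL(2, ℤ) ⧸ Γ, ∫ z in dom ((q.out : SL(2, ℤ)) : GL (Fin 2) ℝ), petersson 2 f g z

/-- The product is additive in the first argument. -/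
theorem pet_add_left {f f' g : ℍ → ℂ} (hf : Bdd f) (hf' : Bdd f') (hg : Bdd g) :
    pet Γ (f + f') g = pet Γ f g + pet Γ f' g := by
  rw [pet, pet, pet, ← Finset.sum_add_distrib]
  refine Finset.sum_congr rfl fun q _ => ?_
  rw [← integral_add (hf.integrableOn hg _) (hf'.integrableOn hg _)]
  simp [petersson, add_mul]

/-- The product is additive in the second argument. -/
theorem pet_add_right {f g g' : ℍ → ℂ} (hf : Bdd f) (hg : Bdd g) (hg' : Bdd g') :
    pet Γ f (g + g') = pet Γ f g + pet Γ f g' := by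
  rw [pet, pet, pet, ← Finset.sum_add_distrib]
  refine Finset.sum_congr rfl fun q _ => ?_
  rw [← integral_add (hf.integrableOn hg _) (hf.integrableOn hg' _)]
  simp [petersson, add_mul, mul_add]

/-- The product is conjugate linear in the first argument. -/
theorem pet_smul_left (c : ℂ) (f g : ℍ → ℂ) : pet Γ (c • f) g = conj c * pet Γ f g := by
  rw [pet, pet, Finset.mul_sum]
  refine Finset.sum_congr rfl fun q _ => ?_
  rw [← integral_const_mul]
  simp [petersson, mul_assoc]

/-- The product is linear in the second argument. -/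
theorem pet_smul_right (c : ℂ) (f g : ℍ → ℂ) : pet Γ f (c • g) = c * pet Γ f g := by
  rw [pet, pet, Finset.mul_sum]
  refine Finset.sum_congr rfl fun q _ => ?_
  rw [← integral_const_mul]
  simp [petersson, mul_assoc, mul_left_comm]

/-- The product commutes with finite sums in the first argument. -/
theorem pet_sum_left {ι : Type*} (s : Finset ι) {f : ι → ℍ → ℂ} {g : ℍ → ℂ}
    (hf : ∀ i, Bdd (f i)) (hg : Bdd g) : pet Γ (∑ i ∈ s, f i) g = ∑ i ∈ s, pet Γ (f i) g := by
  induction s using Finset.cons_induction with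
  | empty => simp [pet, petersson]
  | cons a s ha ih =>
    rw [Finset.sum_cons, Finset.sum_cons, pet_add_left Γ (hf a) (Bdd.sum s hf) hg, ih]

/-- The product commutes with finite sums in the second argument. -/
theorem pet_sum_right {ι : Type*} (s : Finset ι) {f : ℍ → ℂ} {g : ι → ℍ → ℂ}
    (hf : Bdd f) (hg : ∀ i, Bdd (g i)) : pet Γ f (∑ i ∈ s, g i) = ∑ i ∈ s, pet Γ f (g i) := by
  induction s using Finset.cons_induction with
  | empty => simp [pet, petersson]
  | cons a s ha ih =>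
    rw [Finset.sum_cons, Finset.sum_cons, pet_add_right Γ hf (hg a) (Bdd.sum s hg), ih]

/-- A nonempty open subset of the half plane has positive measure. -/
theorem volume_pos_of_isOpen {U : Set ℍ} (hU : IsOpen U) (hne : U.Nonempty) : 0 < volume U := by
  rw [volume_eq_lintegral, setLIntegral_pos_iff (by fun_prop)]
  refine lt_of_lt_of_le ((isOpenEmbedding_coe.isOpenMap U hU).measure_pos volume (hne.image _))
    (measure_mono ?_)
  rintro _ ⟨z, hz, rfl⟩
  exact ⟨by simp [z.im_ne_zero], z, hz, rfl⟩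

/-- The hyperbolic measure is positive on nonempty open sets. -/
instance isOpenPosMeasure_volume : Measure.IsOpenPosMeasure (volume : Measure ℍ) :=
  ⟨fun _ hU hne => (volume_pos_of_isOpen hU hne).ne'⟩

/-- Positive definiteness. -/
theorem eq_zero_of_pet_self {f : CuspForm Γ 2} (h : pet Γ ⇑f ⇑f = 0) : f = 0 := by
  have hb := bdd_cuspForm f
  set ρ : ℍ → ℝ := fun τ => (‖f τ‖ * τ.im) ^ 2 with hρ
  have hint : ∀ q : SL(2, ℤ) ⧸ Γ, IntegrableOn ρ (dom ((q.out : SL(2, ℤ)) : GL (Fin 2) ℝ)) := by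
    intro q
    refine (hb.integrableOn hb _).re.congr (ae_of_all _ fun τ => ?_)
    simp only [petersson_self]
    exact Complex.ofReal_re _
  simp only [pet, petersson_self, integral_complex_ofReal] at h
  rw [← Complex.ofReal_sum, Complex.ofReal_eq_zero,
    Finset.sum_eq_zero_iff_of_nonneg fun q _ => integral_nonneg fun τ => sq_nonneg _] at h
  set q : SL(2, ℤ) ⧸ Γ := QuotientGroup.mk 1
  set U := dom ((q.out : SL(2, ℤ)) : GL (Fin 2) ℝ)
  have h0 := (setIntegral_eq_zero_iff_of_nonneg_ae (ae_of_all _ fun τ => sq_nonneg _) (hint q)).mp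
    (h q (Finset.mem_univ _))
  have heq : Set.EqOn (⇑f) 0 U := by
    refine Measure.eqOn_open_of_ae_eq ?_ (isOpen_dom _) hb.cont.continuousOn
      continuousOn_const (μ := volume)
    filter_upwards [h0] with τ hτ
    simpa [ρ, τ.im_ne_zero] using hτ
  obtain ⟨z₀, hz₀⟩ : U.Nonempty := by
    have h2 : (⟨⟨0, 2⟩, by norm_num⟩ : ℍ) ∈ (𝒟ᵒ : Set ℍ) := by
      constructor <;> norm_num [Complex.normSq]
    exact ⟨((q.out : SL(2, ℤ)) : GL (Fin 2) ℝ)⁻¹ • (⟨⟨0, 2⟩, by norm_num⟩ : ℍ),
      by simpa [U, dom] using h2⟩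
  have hd : DifferentiableOn ℂ (⇑f ∘ ofComplex) {z : ℂ | 0 < z.im} :=
    UpperHalfPlane.mdifferentiable_iff.mp (CuspFormClass.holo f)
  have hopen : IsOpen {z : ℂ | 0 < z.im} := isOpen_lt continuous_const Complex.continuous_im
  have hz := (hd.analyticOnNhd hopen).eqOn_zero_of_preconnected_of_eventuallyEq_zero
    (convex_halfSpace_im_gt 0).isPreconnected z₀.im_pos (by
      filter_upwards [(isOpenEmbedding_coe.isOpenMap U (isOpen_dom _)).mem_nhds
        ⟨z₀, hz₀, rfl⟩] with w hw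
      obtain ⟨τ, hτ, rfl⟩ := hw
      simpa [ofComplex_apply] using heq hτ)
  exact DFunLike.ext _ _ fun τ => by simpa [ofComplex_apply] using hz τ.im_pos

/-- Invariance under a level. -/
def Inv (f : ℍ → ℂ) : Prop := ∀ γ ∈ Γ, f ∣[(2 : ℤ)] (γ : GL (Fin 2) ℝ) = f

omit [Γ.FiniteIndex] in
/-- A cusp form of level `Γ` is invariant under `Γ`. -/
theorem inv_cuspForm (f : CuspForm Γ 2) : Inv Γ ⇑f := fun γ hγ => by
  rw [← ModularForm.SL_slash]
  exact slash_of_mem f hγ

/-- Splitting of the special linear group along the cosets. -/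
noncomputable def splitCosets : (SL(2, ℤ) ⧸ Γ) × Γ ≃ SL(2, ℤ) :=
  Equiv.ofBijective (fun x => x.1.out * (x.2 : SL(2, ℤ))) <| by
    constructor
    · rintro ⟨q, γ⟩ ⟨q', γ'⟩ e
      have hq : q = q' := by
        rw [← q.out_eq', ← q'.out_eq', QuotientGroup.eq]
        have : q.out⁻¹ * q'.out = (γ : SL(2, ℤ)) * (γ' : SL(2, ℤ))⁻¹ := by
          have e' : q.out * (γ : SL(2, ℤ)) = q'.out * (γ' : SL(2, ℤ)) := e
          rw [eq_mul_inv_iff_mul_eq, mul_assoc, ← e', inv_mul_cancel_left]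
        exact this ▸ mul_mem γ.2 (inv_mem γ'.2)
      subst hq
      exact Prod.ext rfl (Subtype.ext (mul_left_cancel e))
    · intro g
      refine ⟨(QuotientGroup.mk g, ⟨(QuotientGroup.mk g : SL(2, ℤ) ⧸ Γ).out⁻¹ * g, ?_⟩), ?_⟩
      · exact QuotientGroup.eq.mp (QuotientGroup.out_eq' _)
      · simp

omit [Γ.FiniteIndex] in
/-- `splitCosets` sends `(q, γ)` to the representative of `q` times `γ`. -/
theorem splitCosets_apply (q : SL(2, ℤ) ⧸ Γ) (γ : Γ) :
    splitCosets Γ (q, γ) = q.out * (γ : SL(2, ℤ)) := rfl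

/-- An absolutely convergent sum over `SL(2, ℤ)` splits along the cosets of `Γ`. -/
theorem sum_tsum_of_hasSum {u : SL(2, ℤ) → ℂ} {s : ℂ} (hu : HasSum u s) :
    (∀ q : SL(2, ℤ) ⧸ Γ, Summable fun γ : Γ => u (q.out * γ)) ∧
      ∑ q : SL(2, ℤ) ⧸ Γ, ∑' γ : Γ, u (q.out * γ) = s := by
  have hs : HasSum (fun x => u (splitCosets Γ x)) s := (splitCosets Γ).hasSum_iff.mpr hu
  simp only [← splitCosets_apply]
  refine ⟨fun q => hs.summable.comp_injective (Prod.mk_right_injective q), ?_⟩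
  rw [← tsum_fintype (L := SummationFilter.unconditional _), ← hs.summable.tsum_prod, hs.tsum_eq]

/-- Splitting an integral over the translates along the cosets. -/
theorem sum_tsum_setIntegral {E : Set ℍ} (hE : MeasurableSet E) {h : ℍ → ℂ}
    (hi : IntegrableOn h E) (C : GL (Fin 2) ℝ) :
    (∀ q : SL(2, ℤ) ⧸ Γ, Summable fun γ : Γ =>
      ∫ z in E ∩ dom (((q.out : SL(2, ℤ)) : GL (Fin 2) ℝ) * ((γ : SL(2, ℤ)) : GL (Fin 2) ℝ) * C),
        h z) ∧
    ∑ q : SL(2, ℤ) ⧸ Γ, ∑' γ : Γ,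
      ∫ z in E ∩ dom (((q.out : SL(2, ℤ)) : GL (Fin 2) ℝ) * ((γ : SL(2, ℤ)) : GL (Fin 2) ℝ) * C),
        h z = 2 * ∫ z in E, h z := by
  have := sum_tsum_of_hasSum Γ (hasSum_setIntegral_mul hE hi C)
  simpa only [← map_mul] using this

omit [Γ.FiniteIndex] in
/-- A finite union of translates, summed at once. -/
theorem sum_tsum_eq {ι : Type*} [Fintype ι] {F : ι × Γ → ℂ}
    (hF : ∀ i, Summable fun γ => F (i, γ)) : ∑ i, ∑' γ, F (i, γ) = ∑' x, F x := by
  classical
  have h : ∀ i, HasSum (fun x : ι × Γ => if x.1 = i then F x else 0) (∑' γ, F (i, γ)) := by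
    intro i
    refine ((Prod.mk_right_injective i).hasSum_iff ?_).mp
      ((hF i).hasSum.congr_fun fun γ => by simp)
    rintro ⟨k, γ⟩ hx
    exact if_neg fun e => hx ⟨γ, by simp at e; simp [e]⟩
  refine (HasSum.tsum_eq ?_).symm
  convert hasSum_sum fun i (_ : i ∈ Finset.univ) => h i using 1
  ext x
  simp

/-- The adjoint of a double coset operator. -/
theorem pet_adjoint {D : Set (GL (Fin 2) ℚ)} {ι κ : Type} [Fintype ι] [Fintype κ]
    (B : ι → GL (Fin 2) ℚ) (C : κ → GL (Fin 2) ℚ)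
    (hdet : ∀ M ∈ D, (0 : ℝ) < (toReal M).det.val)
    (hB : ∀ i, ∀ γ ∈ Γ, gq γ * B i ∈ D)
    (hBbij : ∀ M ∈ D, ∃! x : ι × Γ, gq (x.2 : SL(2, ℤ)) * B x.1 = M)
    (hC : ∀ j, ∀ γ ∈ Γ, C j * gq γ ∈ D)
    (hCbij : ∀ M ∈ D, ∃! x : κ × Γ, C x.1 * gq (x.2 : SL(2, ℤ))⁻¹ = M)
    {f g : ℍ → ℂ} (hf : Bdd f) (hg : Bdd g) (hfi : Inv Γ f) (hgi : Inv Γ g) :
    pet Γ (∑ i, f ∣[(2 : ℤ)] toReal (B i)) g
      = pet Γ f (∑ j, g ∣[(2 : ℤ)] (toReal (C j))⁻¹) := by
  classical
  have hBD : ∀ i, B i ∈ D := fun i => by simpa using hB i 1 (one_mem _)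
  have hCD : ∀ j, C j ∈ D := fun j => by simpa using hC j 1 (one_mem _)
  have hinv : ∀ M ∈ D, (0 : ℝ) < (toReal M)⁻¹.det.val := fun M hM => by
    rw [map_inv, Units.val_inv_eq_inv_val]
    exact inv_pos.mpr (hdet M hM)
  set r : SL(2, ℤ) ⧸ Γ → GL (Fin 2) ℝ := fun q => ((q.out : SL(2, ℤ)) : GL (Fin 2) ℝ) with hr
  set φ : GL (Fin 2) ℚ → ℍ → ℂ := fun M => petersson 2 f (g ∣[(2 : ℤ)] (toReal M)⁻¹) with hφ
  set F : SL(2, ℤ) ⧸ Γ → SL(2, ℤ) ⧸ Γ → D → ℂ := fun q q' M =>
    ∫ z in dom (r q * (toReal M.1)⁻¹) ∩ dom (r q'), φ M.1 z with hF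
  -- the two enumerations
  let eB : ι × Γ ≃ D := Equiv.ofBijective (fun x => ⟨_, hB x.1 x.2.1 x.2.2⟩) <| by
    refine ⟨fun x y e => ?_, fun M => ?_⟩
    · exact (hBbij _ (hB y.1 y.2.1 y.2.2)).unique (congrArg Subtype.val e) rfl
    · obtain ⟨x, hx, -⟩ := hBbij M.1 M.2
      exact ⟨x, Subtype.ext hx⟩
  let eC : κ × Γ ≃ D :=
    Equiv.ofBijective (fun x => ⟨_, hC x.1 (x.2 : SL(2, ℤ))⁻¹ (inv_mem x.2.2)⟩) <| by
    refine ⟨fun x y e => ?_, fun M => ?_⟩
    · exact (hCbij _ (hC y.1 _ (inv_mem y.2.2))).unique (congrArg Subtype.val e) rfl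
    · obtain ⟨x, hx, -⟩ := hCbij M.1 M.2
      exact ⟨x, Subtype.ext hx⟩
  -- right multiplication by the level
  have hφC : ∀ j, ∀ γ ∈ Γ, φ (C j * gq γ⁻¹) = φ (C j) := fun j γ hγ => by
    simp only [φ, map_mul, map_inv, mul_inv_rev, inv_inv, SlashAction.slash_mul, toReal_gq,
      hgi γ hγ]
  have hR : ∀ j q', 2 * (∫ z in dom (r q'), φ (C j) z)
      = ∑ q, ∑' γ : Γ, F q q' (eC (j, γ)) := fun j q' => by
    obtain ⟨-, h⟩ := sum_tsum_setIntegral Γ (measurableSet_dom (r q'))
      (hf.integrableOn (hg.slash (hinv _ (hCD j))) (r q')) (toReal (C j))⁻¹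
    rw [← h]
    refine Finset.sum_congr rfl fun q _ => tsum_congr fun γ => ?_
    simp only [F, r, eC, Equiv.ofBijective_apply]
    rw [hφC j γ γ.2, Set.inter_comm]
    simp only [φ, map_mul, map_inv, mul_inv_rev, inv_inv, toReal_gq, mul_assoc]
  have hRs : ∀ j q q', Summable fun γ : Γ => F q q' (eC (j, γ)) := fun j q q' => by
    obtain ⟨h, -⟩ := sum_tsum_setIntegral Γ (measurableSet_dom (r q'))
      (hf.integrableOn (hg.slash (hinv _ (hCD j))) (r q')) (toReal (C j))⁻¹
    refine (h q).congr fun γ => ?_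
    simp only [F, r, eC, Equiv.ofBijective_apply]
    rw [hφC j γ γ.2, Set.inter_comm]
    simp only [φ, map_mul, map_inv, mul_inv_rev, inv_inv, toReal_gq, mul_assoc]
  -- left multiplication by the level
  have hmove : ∀ i q q', ∀ γ : Γ, F q q' (eB (i, γ))
      = ∫ z in dom (r q * (toReal (B i))⁻¹) ∩ dom (r q' * ((γ : SL(2, ℤ)) : GL (Fin 2) ℝ) * 1),
          φ (B i) z := by
    intro i q q' γ
    set G : GL (Fin 2) ℝ := ((γ : SL(2, ℤ)) : GL (Fin 2) ℝ) with hG
    have hGdet : (0 : ℝ) < G.det.val := by simp [G]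
    simp only [F, eB, Equiv.ofBijective_apply, map_mul, toReal_gq, mul_inv_rev, ← hG, mul_one]
    rw [← (measurePreserving_smul G volume).setIntegral_preimage_emb
      (measurableEmbedding_const_smul G)]
    have e : (fun z : ℍ => G • z) ⁻¹'
        (dom (r q * ((toReal (B i))⁻¹ * G⁻¹)) ∩ dom (r q'))
        = dom (r q * (toReal (B i))⁻¹) ∩ dom (r q' * G) := by
      ext z
      simp [dom, mul_smul]
    rw [e]
    refine setIntegral_congr_fun ((measurableSet_dom _).inter (measurableSet_dom _)) fun z _ => ?_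
    simp only [φ, map_mul, toReal_gq, mul_inv_rev, ← hG]
    conv_rhs => rw [← hfi γ γ.2, ← hG]
    rw [← petersson_two_slash f _ hGdet z, ← SlashAction.slash_mul, inv_mul_cancel_right]
  have hL : ∀ i q, 2 * (∫ z in dom (r q), petersson 2 (f ∣[(2 : ℤ)] toReal (B i)) g z)
      = ∑ q', ∑' γ : Γ, F q q' (eB (i, γ)) := fun i q => by
    obtain ⟨-, h⟩ := sum_tsum_setIntegral Γ (measurableSet_dom (r q * (toReal (B i))⁻¹))
      (hf.integrableOn (hg.slash (hinv _ (hBD i))) _) 1
    refine Eq.trans ?_ (h.symm.trans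
      (Finset.sum_congr rfl fun q' _ => tsum_congr fun γ => (hmove i q q' γ).symm))
    congr 1
    conv_rhs => rw [← (measurePreserving_smul (toReal (B i)) volume).setIntegral_preimage_emb
      (measurableEmbedding_const_smul (toReal (B i)))]
    have e : (fun z : ℍ => toReal (B i) • z) ⁻¹' dom (r q * (toReal (B i))⁻¹) = dom (r q) := by
      ext z
      simp [dom, mul_smul]
    rw [e]
    refine setIntegral_congr_fun (measurableSet_dom _) fun z _ => ?_
    rw [← petersson_two_slash f _ (hdet _ (hBD i)) z, ← SlashAction.slash_mul, inv_mul_cancel,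
      SlashAction.slash_one]
  have hLs : ∀ i q q', Summable fun γ : Γ => F q q' (eB (i, γ)) := fun i q q' => by
    obtain ⟨h, -⟩ := sum_tsum_setIntegral Γ (measurableSet_dom (r q * (toReal (B i))⁻¹))
      (hf.integrableOn (hg.slash (hinv _ (hBD i))) _) 1
    exact (h q').congr fun γ => (hmove i q q' γ).symm
  refine mul_left_cancel₀ (two_ne_zero' ℂ) ?_
  rw [pet_sum_left Γ _ (fun i => hf.slash (hdet _ (hBD i))) hg,
    pet_sum_right Γ _ hf fun j => hg.slash (hinv _ (hCD j))]
  simp only [pet, Finset.mul_sum]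
  calc ∑ i, ∑ q, 2 * (∫ z in dom (r q), petersson 2 (f ∣[(2 : ℤ)] toReal (B i)) g z)
      = ∑ q, ∑ q', ∑' M : D, F q q' M := by
        simp only [hL]
        rw [Finset.sum_comm]
        refine Finset.sum_congr rfl fun q _ => ?_
        rw [Finset.sum_comm]
        refine Finset.sum_congr rfl fun q' _ => ?_
        rw [sum_tsum_eq Γ (F := fun x => F q q' (eB x)) fun i => hLs i q q', eB.tsum_eq (F q q')]
    _ = ∑ j, ∑ q', 2 * (∫ z in dom (r q'), φ (C j) z) := by
        simp only [hR]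
        rw [Finset.sum_comm, Finset.sum_comm (γ := κ)]
        refine Finset.sum_congr rfl fun q' _ => ?_
        conv_rhs => rw [Finset.sum_comm]
        refine Finset.sum_congr rfl fun q _ => ?_
        rw [sum_tsum_eq Γ (F := fun x => F q q' (eC x)) fun j => hRs j q q', eC.tsum_eq (F q q')]

end Fermat.MF.Petersson
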