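import Mathlib.Analysis.Complex.UpperHalfPlane.Measure
import Mathlib.NumberTheory.Modular
import Mathlib.MeasureTheory.Measure.Lebesgue.Complex
import Mathlib.MeasureTheory.Measure.Lebesgue.EqHaar
import Mathlib.Analysis.SpecialFunctions.ImproperIntegrals
import Mathlib.MeasureTheory.Integral.Prod
import Mathlib.MeasureTheory.Integral.Bochner.Set

/-!
# The translates of the fundamental domain cover the upper half plane twice

`hasSum_setIntegral`: the integrals over the translates add up to twice the whole; `Inner` computes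
adjoints by unfolding with it.
-/

namespace Fermat.MF.Petersson

open scoped MatrixGroups Modular ENNReal
open MeasureTheory UpperHalfPlane ModularGroup

/-- The set of points carried into the interior of the fundamental domain. -/
def dom (M : GL (Fin 2) ℝ) : Set ℍ := (fun z : ℍ => M • z) ⁻¹' 𝒟ᵒ

/-- Each `dom M` is open. -/
theorem isOpen_dom (M : GL (Fin 2) ℝ) : IsOpen (dom M) :=
  isOpen_fdo.preimage (continuous_const_smul M)

/-- Each `dom M` is measurable. -/
theorem measurableSet_dom (M : GL (Fin 2) ℝ) : MeasurableSet (dom M) :=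
  (isOpen_dom M).measurableSet

/-- `SL(2, ℤ)` is countable. -/
instance countable_SL2Z : Countable SL(2, ℤ) :=
  haveI : Countable (Matrix (Fin 2) (Fin 2) ℤ) :=
    inferInstanceAs (Countable (Fin 2 → Fin 2 → ℤ))
  Subtype.countable

/-- A vertical line of the plane is null. -/
theorem volume_re_line (c : ℝ) : volume {z : ℂ | z.re = c} = 0 := by
  have e : {z : ℂ | z.re = c} = Complex.measurableEquivRealProd ⁻¹' ({c} ×ˢ Set.univ) := by
    ext z; simp [Complex.measurableEquivRealProd]
  rw [e, Complex.volume_preserving_equiv_real_prod.measure_preimage_equiv,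
    Measure.volume_eq_prod, Measure.prod_prod, Real.volume_singleton, zero_mul]

/-- A set with null image in the plane is null for the hyperbolic measure. -/
theorem volume_eq_zero_of_coe {s : Set ℍ} (h : volume ((↑) '' s : Set ℂ) = 0) : volume s = 0 := by
  rw [volume_eq_lintegral]
  exact setLIntegral_measure_zero _ _ h

/-- The boundary of the fundamental domain is null. -/
theorem volume_fd_sdiff : volume (𝒟 \ 𝒟ᵒ) = 0 := by
  refine volume_eq_zero_of_coe (measure_mono_null ?_
    (measure_union_null (measure_union_null (volume_re_line (1 / 2)) (volume_re_line (-(1 / 2))))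
      (Measure.addHaar_sphere volume (0 : ℂ) 1)))
  rintro _ ⟨z, ⟨⟨h1, h2⟩, hno⟩, rfl⟩
  simp only [fdo, Set.mem_ofPred_eq, not_and_or, not_lt] at hno
  rcases hno with h | h
  · refine Or.inr ?_
    have : Complex.normSq (z : ℂ) = 1 := le_antisymm h h1
    rw [Complex.normSq_eq_norm_sq] at this
    simpa using (sq_eq_one_iff.mp this).resolve_right (by linarith [norm_nonneg (z : ℂ)])
  · refine Or.inl ?_
    have : |z.re| = 1 / 2 := le_antisymm h2 h
    rcases (abs_eq (by norm_num)).mp this with h' | h'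
    · exact Or.inl h'
    · exact Or.inr h'

/-- Almost every point is carried outside the boundary of the fundamental domain by `g`. -/
theorem ae_smul_notMem (g : SL(2, ℤ)) : ∀ᵐ z : ℍ, (g : GL (Fin 2) ℝ) • z ∉ 𝒟 \ 𝒟ᵒ := by
  rw [ae_iff]
  simp only [not_not]
  exact (measurePreserving_smul (g : GL (Fin 2) ℝ) volume).quasiMeasurePreserving.preimage_null
    volume_fd_sdiff

/-- Almost every point lies in exactly two translates. -/
theorem ae_tsum_indicator :
    ∀ᵐ z : ℍ, ∑' g : SL(2, ℤ), (dom (g : GL (Fin 2) ℝ)).indicator (1 : ℍ → ℝ≥0∞) z = 2 := by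
  filter_upwards [ae_all_iff.mpr ae_smul_notMem] with z hz
  obtain ⟨g₀, hg₀⟩ := exists_smul_mem_fd z
  have h0 : g₀ • z ∈ 𝒟ᵒ := by
    by_contra h
    exact hz g₀ ⟨hg₀, h⟩
  have hiff : ∀ g : SL(2, ℤ), z ∈ dom (g : GL (Fin 2) ℝ) ↔ g = g₀ ∨ g = -g₀ := by
    intro g
    change g • z ∈ 𝒟ᵒ ↔ _
    constructor
    · intro h
      rcases eq_one_or_neg_one_of_mem_fdo_mem_fd (g := g * g₀⁻¹) h0
        (by rw [mul_smul, inv_smul_smul]; exact fdo_subset_fd h) with e | e
      · exact Or.inl (mul_inv_eq_one.mp e)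
      · exact Or.inr (by rw [mul_inv_eq_iff_eq_mul] at e; simpa using e)
    · rintro (rfl | rfl)
      · exact h0
      · simpa using h0
  have hne : g₀ ≠ -g₀ := by
    intro e
    have h00 := congrArg (fun g : SL(2, ℤ) => (g 0 0, g 1 0)) e
    simp only [Matrix.SpecialLinearGroup.coe_neg, Matrix.neg_apply, Prod.mk.injEq] at h00
    have hd := g₀.2
    rw [Matrix.det_fin_two] at hd
    obtain ⟨ha, hc⟩ := h00
    have ha' : g₀ 0 0 = 0 := by omega
    have hc' : g₀ 1 0 = 0 := by omega
    simp [ha', hc'] at hd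
  rw [tsum_eq_sum (s := {g₀, -g₀}), Finset.sum_pair hne,
    Set.indicator_of_mem ((hiff g₀).mpr (Or.inl rfl)),
    Set.indicator_of_mem ((hiff (-g₀)).mpr (Or.inr rfl))]
  · norm_num
  · intro g hg
    exact Set.indicator_of_notMem (fun h => hg (by simpa using (hiff g).mp h)) _

/-- The translates of the open fundamental domain cover the half plane twice, up to a null set. -/
theorem measure_sum_restrict_dom :
    Measure.sum (fun g : SL(2, ℤ) => (volume : Measure ℍ).restrict (dom (g : GL (Fin 2) ℝ)))
      = (2 : ℝ≥0∞) • volume := by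
  refine Measure.ext fun s hs => ?_
  rw [Measure.sum_apply _ hs, Measure.smul_apply, smul_eq_mul]
  calc ∑' g : SL(2, ℤ), (volume : Measure ℍ).restrict (dom (g : GL (Fin 2) ℝ)) s
      = ∑' g : SL(2, ℤ), ∫⁻ z in s, (dom (g : GL (Fin 2) ℝ)).indicator 1 z := by
        refine tsum_congr fun g => ?_
        rw [lintegral_indicator_one (measurableSet_dom _), Measure.restrict_apply hs,
          Measure.restrict_apply (measurableSet_dom _), Set.inter_comm]
    _ = ∫⁻ z in s, ∑' g : SL(2, ℤ), (dom (g : GL (Fin 2) ℝ)).indicator 1 z :=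
        (lintegral_tsum fun g =>
          (measurable_one.indicator (measurableSet_dom _)).aemeasurable).symm
    _ = ∫⁻ _ in s, 2 := lintegral_congr_ae (ae_restrict_of_ae ae_tsum_indicator)
    _ = 2 * volume s := by simp

/-- The integrals over all translates add up to twice the integral. -/
theorem hasSum_setIntegral {h : ℍ → ℂ} (hi : Integrable h) :
    HasSum (fun g : SL(2, ℤ) => ∫ z in dom (g : GL (Fin 2) ℝ), h z) (2 * ∫ z, h z) := by
  have hi' : Integrable h
      (Measure.sum fun g : SL(2, ℤ) => (volume : Measure ℍ).restrict (dom (g : GL (Fin 2) ℝ))) := by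
    rw [measure_sum_restrict_dom]
    exact hi.smul_measure (by simp)
  have := hasSum_integral_measure hi'
  rw [measure_sum_restrict_dom, integral_smul_measure] at this
  simpa [Complex.real_smul] using this

/-- The same, for the translates seen through a matrix. -/
theorem hasSum_setIntegral_mul {E : Set ℍ} (hE : MeasurableSet E) {h : ℍ → ℂ}
    (hi : IntegrableOn h E) (C : GL (Fin 2) ℝ) :
    HasSum (fun g : SL(2, ℤ) => ∫ z in E ∩ dom ((g : GL (Fin 2) ℝ) * C), h z)
      (2 * ∫ z in E, h z) := by
  have mp := measurePreserving_smul C⁻¹ (volume : Measure ℍ)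
  have me : MeasurableEmbedding fun z : ℍ => C⁻¹ • z := measurableEmbedding_const_smul C⁻¹
  have key := hasSum_setIntegral ((mp.integrable_comp_emb me).mpr (hi.integrable_indicator hE))
  have e1 : ∀ g : SL(2, ℤ), (fun z : ℍ => C⁻¹ • z) ⁻¹' dom ((g : GL (Fin 2) ℝ) * C)
      = dom (g : GL (Fin 2) ℝ) := fun g => by
    ext z
    simp [dom, mul_smul]
  rw [show (∫ z : ℍ, (E.indicator h ∘ fun z => C⁻¹ • z) z) = ∫ z in E, h z by
    rw [← integral_indicator hE]; exact mp.integral_comp me _] at key
  refine key.congr_fun fun g => ?_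
  rw [← e1 g, ← setIntegral_indicator_inter hE]
  exact (mp.setIntegral_preimage_emb me _ _).symm
where
  setIntegral_indicator_inter {E S : Set ℍ} {h : ℍ → ℂ} (hE : MeasurableSet E) :
      ∫ z in S, E.indicator h z = ∫ z in E ∩ S, h z := by
    rw [setIntegral_indicator hE, Set.inter_comm]

/-- The fundamental domain has finite volume. -/
theorem volume_fdo_lt_top : volume (𝒟ᵒ : Set ℍ) < ∞ := by
  set S : Set ℂ := Complex.measurableEquivRealProd ⁻¹'
    (Set.Icc (-(1 / 2)) (1 / 2) ×ˢ Set.Ioi (1 / 2)) with hS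
  have hint : IntegrableOn (fun p : ℝ × ℝ => (1 : ℝ) * p.2 ^ (-2 : ℝ))
      (Set.Icc (-(1 / 2)) (1 / 2) ×ˢ Set.Ioi (1 / 2)) := by
    rw [IntegrableOn, Measure.volume_eq_prod, ← Measure.prod_restrict]
    exact Integrable.mul_prod (f := fun _ : ℝ => (1 : ℝ)) (g := fun y : ℝ => y ^ (-2 : ℝ))
      (integrableOn_const measure_Icc_lt_top.ne)
      (integrableOn_Ioi_rpow_of_lt (by norm_num) (by norm_num))
  have hint' : IntegrableOn (fun z : ℂ => (1 : ℝ) * z.im ^ (-2 : ℝ)) S :=
    (Complex.volume_preserving_equiv_real_prod.integrableOn_comp_preimage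
      Complex.measurableEquivRealProd.measurableEmbedding).mpr hint
  rw [volume_eq_lintegral]
  refine lt_of_le_of_lt (lintegral_mono_set (t := S) ?_) (lt_of_eq_of_lt ?_ hint'.hasFiniteIntegral)
  · rintro _ ⟨z, hz, rfl⟩
    have h1 := three_lt_four_mul_im_sq_of_mem_fdo hz
    have h2 := abs_lt.mp hz.2
    have h3 := z.im_pos
    exact ⟨⟨h2.1.le, h2.2.le⟩, show (1 / 2 : ℝ) < z.im by nlinarith⟩
  · refine lintegral_congr fun z => ?_
    rw [show (-2 : ℝ) = ((-2 : ℤ) : ℝ) by norm_num]
    simp [enorm_eq_nnnorm, zpow_neg, nnnorm_inv, inv_pow]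

end Fermat.MF.Petersson
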